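import Fermat.Agent.S21_helper65.Existence

set_option autoImplicit false

open UpperHalfPlane hiding I
open ModularForm Derivative Complex Filter Topology CongruenceSubgroup
open scoped MatrixGroups ModularForm Manifold

namespace Fermat.Agent.S21_helper65

open ModularCurve ModularCurve.Period

variable {N : ℕ} [NeZero N]

theorem hasEquivariantPrimitive_add {f g : CuspForm (Gamma0 N) 2} {F G : ℍ → ℂ}
    (hF : HasEquivariantPrimitive N f F) (hG : HasEquivariantPrimitive N g G) :
    HasEquivariantPrimitive N (f + g) (F + G) := by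
  apply hasEquivariantPrimitive_of
  · rw [FunLike.coe_add]
    exact IsPrim.add (hF.1 : IsPrim (⇑f) F) (hG.1 : IsPrim (⇑g) G)
  · have := hF.2.1.add hG.2.1
    rw [add_zero] at this
    exact this

theorem hasEquivariantPrimitive_smul (c : ℂ) {f : CuspForm (Gamma0 N) 2} {F : ℍ → ℂ}
    (hF : HasEquivariantPrimitive N f F) :
    HasEquivariantPrimitive N (c • f) (c • F) := by
  apply hasEquivariantPrimitive_of
  · rw [FunLike.coe_smul]
    exact IsPrim.const_smul (hF.1 : IsPrim (⇑f) F) c
  · have := hF.2.1.const_smul c
    rw [smul_zero] at this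
    exact this

theorem periodMap_add (f g : CuspForm (Gamma0 N) 2) :
    periodMap N (f + g) = periodMap N f + periodMap N g := by
  obtain ⟨F, hF⟩ := exists_hasEquivariantPrimitive f
  obtain ⟨G, hG⟩ := exists_hasEquivariantPrimitive g
  refine AddMonoidHom.ext fun γ => ?_
  obtain ⟨γ, rfl⟩ := Additive.ofMul.surjective γ
  rw [AddMonoidHom.add_apply, periodMap_apply (f + g) (hasEquivariantPrimitive_add hF hG) γ
    UpperHalfPlane.I, periodMap_apply f hF γ UpperHalfPlane.I,
    periodMap_apply g hG γ UpperHalfPlane.I]
  simp only [Pi.add_apply]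
  ring

theorem periodMap_smul (c : ℂ) (f : CuspForm (Gamma0 N) 2) :
    periodMap N (c • f) = c • periodMap N f := by
  obtain ⟨F, hF⟩ := exists_hasEquivariantPrimitive f
  refine AddMonoidHom.ext fun γ => ?_
  obtain ⟨γ, rfl⟩ := Additive.ofMul.surjective γ
  rw [AddMonoidHom.smul_apply, periodMap_apply (c • f) (hasEquivariantPrimitive_smul c hF) γ
    UpperHalfPlane.I, periodMap_apply f hF γ UpperHalfPlane.I]
  simp only [Pi.smul_apply, smul_eq_mul]
  ring

/-- The period map as a linear map. -/
noncomputable def periodMapLinear (N : ℕ) [NeZero N] :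
    CuspForm (Gamma0 N) 2 →ₗ[ℂ] (Additive (Gamma0 N) →+ ℂ) where
  toFun := periodMap N
  map_add' := periodMap_add
  map_smul' c f := by
    rw [RingHom.id_apply]
    exact periodMap_smul c f

@[simp] theorem periodMapLinear_apply (f : CuspForm (Gamma0 N) 2) :
    periodMapLinear N f = periodMap N f := rfl

/-- **(E2)** The period map is linear. -/
theorem existsPeriodMapLinear (N : ℕ) [NeZero N] : ExistsPeriodMapLinear N :=
  ⟨periodMapLinear N, fun _ => rfl⟩

/-- The pair map, unfolded. -/
theorem periodHomPair_eq (N : ℕ) [NeZero N] :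
    periodHomPair N = LinearMap.coprod
      ((LinearMap.id + charInvolution N ℂ ℂ) ∘ₗ periodMapLinear N)
      ((LinearMap.id - charInvolution N ℂ ℂ) ∘ₗ periodMapLinear N) := by
  obtain ⟨pml, hpml, he⟩ := periodHomPair_def N (existsPeriodMapLinear N)
  have : pml = periodMapLinear N := LinearMap.ext fun f => by rw [hpml f]; rfl
  rw [he, this]

theorem periodHomPair_apply (f g : CuspForm (Gamma0 N) 2) :
    periodHomPair N (f, g) = (periodMap N f + charInvolution N ℂ ℂ (periodMap N f))
      + (periodMap N g - charInvolution N ℂ ℂ (periodMap N g)) := by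
  rw [periodHomPair_eq]
  simp [LinearMap.coprod_apply]

end Fermat.Agent.S21_helper65
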