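import Fermat.Agent.S21_helper65.Linear

set_option autoImplicit false

open UpperHalfPlane hiding I
open ModularForm Derivative Complex Filter Topology CongruenceSubgroup
open scoped MatrixGroups ModularForm Manifold

namespace Fermat.Agent.S21_helper65

open ModularCurve ModularCurve.Period

/-- An element of `SL(2, ℤ)` whose trace squares to `4` is conjugate to an upper triangular
matrix. -/
theorem exists_conj_upper (γ : SL(2, ℤ))
    (htr : (γ : Matrix (Fin 2) (Fin 2) ℤ).trace ^ 2 = 4) :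
    ∃ δ : SL(2, ℤ), ((δ⁻¹ * γ * δ : SL(2, ℤ)) : Matrix (Fin 2) (Fin 2) ℤ) 1 0 = 0 := by
  set a := (γ : Matrix (Fin 2) (Fin 2) ℤ) 0 0 with ha
  set b := (γ : Matrix (Fin 2) (Fin 2) ℤ) 0 1 with hb
  set c := (γ : Matrix (Fin 2) (Fin 2) ℤ) 1 0 with hc
  set d := (γ : Matrix (Fin 2) (Fin 2) ℤ) 1 1 with hd
  have hdet : a * d - b * c = 1 := by
    have := γ.det_coe
    rw [Matrix.det_fin_two] at this
    exact this
  have htr' : (a + d) ^ 2 = 4 := by
    rw [Matrix.trace_fin_two] at htr
    exact htr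
  obtain ⟨ε, hε, hsum⟩ : ∃ ε : ℤ, ε * ε = 1 ∧ a + d = 2 * ε := by
    have h4 : (a + d - 2) * (a + d + 2) = 0 := by nlinarith
    rcases mul_eq_zero.mp h4 with h | h
    · exact ⟨1, by norm_num, by omega⟩
    · exact ⟨-1, by norm_num, by omega⟩
  by_cases hc0 : c = 0
  · refine ⟨1, ?_⟩
    simpa using hc0
  · set g : ℤ := (Int.gcd (ε - d) c : ℤ) with hg
    have hg0 : g ≠ 0 := by
      rw [hg]
      exact_mod_cast Int.gcd_ne_zero_right hc0
    have hgx : g ∣ ε - d := Int.gcd_dvd_left _ _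
    have hgy : g ∣ c := Int.gcd_dvd_right _ _
    obtain ⟨x, hx⟩ := hgx
    obtain ⟨y, hy⟩ := hgy
    have hcop : IsCoprime x y := by
      have h1 : Int.gcd (ε - d) c = Int.gcd (g * x) (g * y) := by rw [← hx, ← hy]
      rw [Int.gcd_mul_left] at h1
      have h2 : (Int.gcd (ε - d) c : ℤ) = g := rfl
      have h3 : (g.natAbs : ℤ) * (Int.gcd x y : ℤ) = g := by
        rw [← h2]
        exact_mod_cast h1.symm
      have hgnn : 0 ≤ g := by rw [hg]; positivity
      rw [Int.natAbs_of_nonneg hgnn] at h3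
      have h4 : (Int.gcd x y : ℤ) = 1 := by
        have : g * (Int.gcd x y : ℤ) = g * 1 := by rw [h3, mul_one]
        exact mul_left_cancel₀ hg0 this
      exact Int.isCoprime_iff_gcd_eq_one.mpr (by exact_mod_cast h4)
    obtain ⟨u, v, huv⟩ := hcop
    let δ : SL(2, ℤ) := ⟨!![x, -v; y, u], by
      rw [Matrix.det_fin_two_of]
      linarith⟩
    refine ⟨δ, ?_⟩
    have key : c * x ^ 2 + (d - a) * x * y - b * y ^ 2 = 0 := by
      have h1 : (c * x ^ 2 + (d - a) * x * y - b * y ^ 2) * g ^ 2 = 0 := by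
        have e1 : (c * x ^ 2 + (d - a) * x * y - b * y ^ 2) * g ^ 2
            = c * (g * x) ^ 2 + (d - a) * (g * x) * (g * y) - b * (g * y) ^ 2 := by ring
        rw [e1, ← hx, ← hy]
        linear_combination c * hdet - (c * ε) * hsum - c * hε
      rcases mul_eq_zero.mp h1 with h | h
      · exact h
      · exact absurd ((pow_eq_zero_iff two_ne_zero).mp h) hg0
    have hδ : (δ : Matrix (Fin 2) (Fin 2) ℤ) = !![x, -v; y, u] := rfl
    have hγ : (γ : Matrix (Fin 2) (Fin 2) ℤ) = !![a, b; c, d] := by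
      ext i j; fin_cases i <;> fin_cases j <;> rfl
    rw [Matrix.SpecialLinearGroup.coe_mul, Matrix.SpecialLinearGroup.coe_mul,
      Matrix.SpecialLinearGroup.coe_inv, hδ, Matrix.adjugate_fin_two_of, hγ]
    simp only [Matrix.mul_apply, Fin.sum_univ_two, Matrix.of_apply, Matrix.cons_val',
      Matrix.cons_val_zero, Matrix.cons_val_one, Matrix.empty_val', Matrix.cons_val_fin_one]
    linear_combination key

theorem tendsto_T_zpow_smul_atImInfty (n : ℤ) :
    Tendsto (fun w : ℍ => ModularGroup.T ^ n • w) atImInfty atImInfty := by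
  rw [UpperHalfPlane.atImInfty, tendsto_comap_iff]
  have : (UpperHalfPlane.im ∘ fun w : ℍ => ModularGroup.T ^ n • w) = UpperHalfPlane.im := by
    funext w
    exact ModularGroup.im_T_zpow_smul w n
  rw [this]
  exact tendsto_comap

variable {N : ℕ}

/-- The period of a parabolic element (trace squared equal to four) vanishes. -/
theorem periodMap_apply_eq_zero_of_trace (f : CuspForm (Gamma0 N) 2) {F : ℍ → ℂ}
    (hF : HasEquivariantPrimitive N f F) (γ : Gamma0 N)
    (htr : (((γ : SL(2, ℤ)) : Matrix (Fin 2) (Fin 2) ℤ)).trace ^ 2 = 4) :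
    periodMap N f (Additive.ofMul γ) = 0 := by
  obtain ⟨δ, hδ⟩ := exists_conj_upper (γ : SL(2, ℤ)) htr
  obtain ⟨n, hn⟩ := ModularGroup.exists_eq_T_zpow_of_c_eq_zero hδ
  obtain ⟨L, hL⟩ := hF.2.2.2 δ
  set c := periodMap N f (Additive.ofMul γ) with hc
  have h1 : ∀ w : ℍ, F (δ • (ModularGroup.T ^ n • w)) - F (δ • w) = c := by
    intro w
    rw [hc, periodMap_apply f hF γ (δ • w), ← hn w]
    congr 2
    rw [← mul_smul, ← mul_smul]
    congr 1
    group
  have h2 : Tendsto (fun w : ℍ => F (δ • (ModularGroup.T ^ n • w)) - F (δ • w)) atImInfty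
      (𝓝 (L - L)) :=
    (hL.comp (tendsto_T_zpow_smul_atImInfty n)).sub hL
  have h3 : Tendsto (fun w : ℍ => F (δ • (ModularGroup.T ^ n • w)) - F (δ • w)) atImInfty
      (𝓝 c) := by
    simp_rw [h1]
    exact tendsto_const_nhds
  have := tendsto_nhds_unique h3 h2
  rw [this, sub_self]

/-- **(E3)** The period map takes values in the parabolic homomorphisms. -/
theorem periodMap_mem_parabolicHoms [NeZero N] (f : CuspForm (Gamma0 N) 2) :
    periodMap N f ∈ parabolicHoms ℂ (Gamma0 N) ℂ := by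
  obtain ⟨F, hF⟩ := exists_hasEquivariantPrimitive f
  rw [mem_parabolicHoms_iff]
  intro γ hγ
  exact periodMap_apply_eq_zero_of_trace f hF γ hγ

theorem range_periodHomPair_le [NeZero N] :
    LinearMap.range (periodHomPair N) ≤ parabolicHoms ℂ (Gamma0 N) ℂ := by
  rintro _ ⟨⟨f, g⟩, rfl⟩
  rw [periodHomPair_apply]
  have hf := periodMap_mem_parabolicHoms f
  have hg := periodMap_mem_parabolicHoms g
  exact Submodule.add_mem _
    (Submodule.add_mem _ hf (charInvolution_mem_parabolicHoms N ℂ ℂ hf))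
    (Submodule.sub_mem _ hg (charInvolution_mem_parabolicHoms N ℂ ℂ hg))

end Fermat.Agent.S21_helper65
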