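import Fermat.Agent.S21_helper65.Parabolic
import Fermat.Prelude.Def_ModularCurve_GenusNumerics

set_option autoImplicit false

open CongruenceSubgroup
open scoped MatrixGroups

namespace Fermat.Agent.S21_helper65

open ModularCurve ModularCurve.Period

variable (N : ℕ) [NeZero N]

/-- The squeeze: injectivity of the pair map, the upper bound for the parabolic homomorphisms and
the lower bound for the cusp forms give both the dimension formula and Eichler–Shimura. -/
theorem squeeze
    (hA : Function.Injective (periodHomPair N))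
    (hBfin : Module.Finite ℂ (parabolicHoms ℂ (Gamma0 N) ℂ))
    (hB : (Module.finrank ℂ (parabolicHoms ℂ (Gamma0 N) ℂ) : ℚ) ≤ 2 * genusFormula N)
    (hC : genusFormula N ≤ (Module.finrank ℂ (CuspForm (Gamma0 N) 2) : ℚ)) :
    ((Module.finrank ℂ (CuspForm (Gamma0 N) 2) : ℚ) = genusFormula N) ∧
      (Function.Injective (periodHomPair N) ∧
        LinearMap.range (periodHomPair N) = parabolicHoms ℂ (Gamma0 N) ℂ) := by
  classical
  -- restrict the codomain
  set P' : (CuspForm (Gamma0 N) 2 × CuspForm (Gamma0 N) 2) →ₗ[ℂ]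
      parabolicHoms ℂ (Gamma0 N) ℂ :=
    LinearMap.codRestrict _ (periodHomPair N)
      (fun x => range_periodHomPair_le (N := N) ⟨x, rfl⟩) with hP'
  have hP'inj : Function.Injective P' := by
    intro x y hxy
    apply hA
    have := congrArg Subtype.val hxy
    simpa [hP'] using this
  have : Module.Finite ℂ (CuspForm (Gamma0 N) 2 × CuspForm (Gamma0 N) 2) :=
    Module.Finite.of_injective P' hP'inj
  have : Module.Finite ℂ (CuspForm (Gamma0 N) 2) :=
    Module.Finite.of_injective (LinearMap.inl ℂ _ (CuspForm (Gamma0 N) 2)) LinearMap.inl_injective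
  have h1 : Module.finrank ℂ (CuspForm (Gamma0 N) 2 × CuspForm (Gamma0 N) 2)
      ≤ Module.finrank ℂ (parabolicHoms ℂ (Gamma0 N) ℂ) :=
    LinearMap.finrank_le_finrank_of_injective hP'inj
  have h2 : Module.finrank ℂ (CuspForm (Gamma0 N) 2 × CuspForm (Gamma0 N) 2)
      = 2 * Module.finrank ℂ (CuspForm (Gamma0 N) 2) := by
    rw [Module.finrank_prod]; ring
  have h1q : (2 : ℚ) * (Module.finrank ℂ (CuspForm (Gamma0 N) 2) : ℚ)
      ≤ (Module.finrank ℂ (parabolicHoms ℂ (Gamma0 N) ℂ) : ℚ) := by
    rw [h2] at h1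
    exact_mod_cast h1
  have hdim : (Module.finrank ℂ (CuspForm (Gamma0 N) 2) : ℚ) = genusFormula N := by
    linarith
  have heq : Module.finrank ℂ (CuspForm (Gamma0 N) 2 × CuspForm (Gamma0 N) 2)
      = Module.finrank ℂ (parabolicHoms ℂ (Gamma0 N) ℂ) := by
    apply le_antisymm h1
    have : (Module.finrank ℂ (parabolicHoms ℂ (Gamma0 N) ℂ) : ℚ)
        ≤ (2 : ℚ) * (Module.finrank ℂ (CuspForm (Gamma0 N) 2) : ℚ) := by linarith
    rw [h2]
    exact_mod_cast this
  have hsurj : Function.Surjective P' :=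
    (LinearMap.injective_iff_surjective_of_finrank_eq_finrank heq).mp hP'inj
  refine ⟨hdim, hA, le_antisymm (range_periodHomPair_le (N := N)) ?_⟩
  intro φ hφ
  obtain ⟨x, hx⟩ := hsurj ⟨φ, hφ⟩
  refine ⟨x, ?_⟩
  have := congrArg Subtype.val hx
  simpa [hP'] using this

end Fermat.Agent.S21_helper65
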