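import Fermat.Agent.S21_helper65.Primitive

set_option autoImplicit false

open UpperHalfPlane hiding I
open ModularForm Derivative Complex Filter Topology CongruenceSubgroup
open scoped MatrixGroups ModularForm Manifold

namespace Fermat.Agent.S21_helper65

open Fermat.Agent.S22_helper8 ModularCurve ModularCurve.Period

variable {N : ℕ}

theorem slash_eq_self_of_mem_Gamma0 {k : ℤ} (f : CuspForm (Gamma0 N) k) {γ : SL(2, ℤ)}
    (hγ : γ ∈ Gamma0 N) : (⇑f) ∣[k] γ = ⇑f :=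
  SlashInvariantForm.slash_action_eqn f _ ⟨γ, hγ, rfl⟩

/-- The conjugate of `T ^ N` by any `δ` lies in `Γ₀(N)`. -/
theorem conj_T_pow_mem_Gamma0 (δ : SL(2, ℤ)) :
    δ * ModularGroup.T ^ (N : ℤ) * δ⁻¹ ∈ Gamma0 N := by
  have h1 : ModularGroup.T ^ (N : ℤ) ∈ CongruenceSubgroup.Gamma N :=
    ModularGroup_T_pow_mem_Gamma N N dvd_rfl
  have h2 : δ * ModularGroup.T ^ (N : ℤ) * δ⁻¹ ∈ CongruenceSubgroup.Gamma N :=
    (Gamma_normal N).conj_mem _ h1 δ
  have hle : CongruenceSubgroup.Gamma N ≤ Gamma0 N := by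
    intro γ hγ
    rw [Gamma_mem] at hγ
    rw [Gamma0_mem]
    exact hγ.2.2.1
  exact hle h2

theorem slash_T_pow_eq [NeZero N] {k : ℤ} (f : CuspForm (Gamma0 N) k) (δ : SL(2, ℤ)) :
    ((⇑f) ∣[k] δ) ∣[k] (ModularGroup.T ^ (N : ℤ)) = (⇑f) ∣[k] δ := by
  have h := slash_eq_self_of_mem_Gamma0 f (conj_T_pow_mem_Gamma0 (N := N) δ)
  have e : δ * ModularGroup.T ^ (N : ℤ) = (δ * ModularGroup.T ^ (N : ℤ) * δ⁻¹) * δ := by group
  rw [← SlashAction.slash_mul, e, SlashAction.slash_mul, h]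

theorem slash_vadd_eq [NeZero N] {k : ℤ} (f : CuspForm (Gamma0 N) k) (δ : SL(2, ℤ)) (τ : ℍ) :
    ((⇑f) ∣[k] δ) ((N : ℝ) +ᵥ τ) = ((⇑f) ∣[k] δ) τ := by
  have h := congrFun (slash_T_pow_eq f δ) τ
  rw [ModularForm.SL_slash_apply] at h
  have hsm : ModularGroup.T ^ (N : ℤ) • τ = (N : ℝ) +ᵥ τ := by
    have := UpperHalfPlane.modular_T_zpow_smul τ (N : ℤ)
    simpa using this
  rw [hsm] at h
  rw [← h]
  have hden : denom (Matrix.SpecialLinearGroup.toGL
      ((Matrix.SpecialLinearGroup.map (Int.castRingHom ℝ)) (ModularGroup.T ^ (N : ℤ)))) (τ : ℂ)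
      = 1 := by
    simp [denom, ModularGroup.coe_T_zpow, -zpow_natCast, -map_zpow]
  rw [hden]
  simp

theorem periodic_slash [NeZero N] {k : ℤ} (f : CuspForm (Gamma0 N) k) (δ : SL(2, ℤ)) :
    Function.Periodic (((⇑f) ∣[k] δ) ∘ ofComplex) (N : ℝ) := by
  intro w
  by_cases hw : 0 < im w
  · have hw' : 0 < im (w + (N : ℝ)) := by simp [hw]
    simp only [Function.comp_apply, ofComplex_apply_of_im_pos hw', ofComplex_apply_of_im_pos hw]
    convert slash_vadd_eq f δ ⟨w, hw⟩ using 2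
    ext
    simp [add_comm]
  · have hw0 : im w ≤ 0 := not_lt.mp hw
    have hw' : im (w + (N : ℝ)) ≤ 0 := by simpa using hw0
    simp only [Function.comp_apply]
    rw [ofComplex_apply_of_im_nonpos hw', ofComplex_apply_of_im_nonpos hw0]

/-- The primitive of a weight two cusp form that vanishes at `i∞`. -/
theorem exists_prim_cuspForm [NeZero N] (f : CuspForm (Gamma0 N) 2) :
    ∃ F : ℍ → ℂ, IsPrim (⇑f) F ∧ Tendsto F atImInfty (𝓝 0) :=
  exists_isPrim one_pos (CuspFormClass.holo f)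
    (SlashInvariantFormClass.periodic_comp_ofComplex f
      (CongruenceSubgroup.one_mem_strictPeriods_Gamma0 N))
    (CuspFormClass.zero_at_infty f)

theorem mdiff_slash [NeZero N] {k : ℤ} (f : CuspForm (Gamma0 N) k) (δ : SL(2, ℤ)) :
    MDiff ((⇑f) ∣[k] δ) := by
  rw [ModularForm.SL_slash]
  exact (CuspFormClass.holo f).slash k _

theorem exists_prim_slash [NeZero N] (f : CuspForm (Gamma0 N) 2) (δ : SL(2, ℤ)) :
    ∃ G : ℍ → ℂ, IsPrim ((⇑f) ∣[(2 : ℤ)] δ) G ∧ Tendsto G atImInfty (𝓝 0) :=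
  exists_isPrim (h := (N : ℝ)) (by exact_mod_cast Nat.pos_of_ne_zero (NeZero.ne N))
    (mdiff_slash f δ) (periodic_slash f δ) (CuspFormClass.zero_at_infty_slash f δ)

theorem isEquivariantPrimitive_of_isPrim (f : CuspForm (Gamma0 N) 2) {F : ℍ → ℂ}
    (hF : IsPrim (⇑f) F) : IsEquivariantPrimitive (Gamma0 N) F := by
  intro γ
  have h1 : IsPrim ((⇑f) ∣[(2 : ℤ)] (γ : SL(2, ℤ))) (F ∣[(0 : ℤ)] (γ : SL(2, ℤ))) := hF.slash γ
  rw [slash_eq_self_of_mem_Gamma0 f γ.2] at h1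
  obtain ⟨c, hc⟩ := h1.exists_sub_const hF
  refine ⟨c, fun z => ?_⟩
  rw [← slash_zero_apply F (γ : SL(2, ℤ)) z]
  exact hc z

theorem exists_cusp_limit [NeZero N] (f : CuspForm (Gamma0 N) 2) {F : ℍ → ℂ}
    (hF : IsPrim (⇑f) F) (δ : SL(2, ℤ)) :
    ∃ L : ℂ, Tendsto (fun w : ℍ => F (δ • w)) atImInfty (𝓝 L) := by
  obtain ⟨G, hG, hG0⟩ := exists_prim_slash f δ
  obtain ⟨c, hc⟩ := (hF.slash δ).exists_sub_const hG
  refine ⟨c, ?_⟩
  have e : (fun w : ℍ => F (δ • w)) = fun w => G w + c := by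
    funext w
    rw [← slash_zero_apply F δ w, ← hc w]
    ring
  rw [e]
  simpa using hG0.add_const c

theorem hasEquivariantPrimitive_of [NeZero N] (f : CuspForm (Gamma0 N) 2) {F : ℍ → ℂ}
    (hF : IsPrim (⇑f) F) (h0 : Tendsto F atImInfty (𝓝 0)) : HasEquivariantPrimitive N f F :=
  ⟨hF, h0, isEquivariantPrimitive_of_isPrim f hF, exists_cusp_limit f hF⟩

/-- **(E1)** Every weight two cusp form on `Γ₀(N)` has an equivariant primitive. -/
theorem exists_hasEquivariantPrimitive [NeZero N] (f : CuspForm (Gamma0 N) 2) :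
    ∃ F : ℍ → ℂ, HasEquivariantPrimitive N f F := by
  obtain ⟨F, hF, h0⟩ := exists_prim_cuspForm f
  exact ⟨F, hasEquivariantPrimitive_of f hF h0⟩

/-- Uniqueness of the equivariant primitive. -/
theorem hasEquivariantPrimitive_unique (f : CuspForm (Gamma0 N) 2) {F G : ℍ → ℂ}
    (hF : HasEquivariantPrimitive N f F) (hG : HasEquivariantPrimitive N f G) : F = G :=
  IsPrim.unique hF.1 hG.1 hF.2.1 hG.2.1

/-- **(E4)** The period map evaluated through any equivariant primitive and any base point. -/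
theorem periodMap_apply (f : CuspForm (Gamma0 N) 2) {F : ℍ → ℂ}
    (hF : HasEquivariantPrimitive N f F) (γ : Gamma0 N) (z : ℍ) :
    periodMap N f (Additive.ofMul γ) = F ((γ : SL(2, ℤ)) • z) - F z := by
  obtain ⟨F₀, h₀, he⟩ := periodMap_def N f hF
  have e : F₀ = F := hasEquivariantPrimitive_unique f h₀ hF
  subst e
  rw [he, IsEquivariantPrimitive.periodHom_apply, ← h₀.2.2.1.sub_eq_period γ z]

end Fermat.Agent.S21_helper65
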