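import Mathlib
import Fermat.Prelude.Def_ModularCurve_PeriodHomPair
import Fermat.Prelude.Thm_CongruenceSubgroup_one_mem_strictPeriods_Gamma0
import Fermat.Agent.S22_helper8.Antideriv

set_option autoImplicit false

open UpperHalfPlane hiding I
open ModularForm Derivative Complex Filter Topology CongruenceSubgroup
open scoped MatrixGroups ModularForm Manifold

namespace Fermat.Agent.S21_helper65

open Fermat.Agent.S22_helper8

/-- `F` is a holomorphic primitive of `φ` on the upper half plane. -/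
def IsPrim (φ F : ℍ → ℂ) : Prop := ∀ τ : ℍ, HasDerivAt (F ∘ ofComplex) (φ τ) ↑τ

theorem IsPrim.mdiff {φ F : ℍ → ℂ} (h : IsPrim φ F) : MDiff F := by
  rw [UpperHalfPlane.mdifferentiable_iff]
  intro z hz
  have := h ⟨z, hz⟩
  exact this.differentiableAt.differentiableWithinAt

theorem two_pi_I_ne_zero' : (2 * (Real.pi : ℂ) * I) ≠ 0 := two_pi_I_ne_zero

theorem IsPrim.D_eq {φ F : ℍ → ℂ} (h : IsPrim φ F) :
    D F = fun τ => (2 * (Real.pi : ℂ) * I)⁻¹ * φ τ := by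
  funext τ
  unfold normalizedDerivOfComplex
  rw [(h τ).deriv]

theorem isPrim_of_D {φ F : ℍ → ℂ} (hF : MDiff F)
    (hD : D F = fun τ => (2 * (Real.pi : ℂ) * I)⁻¹ * φ τ) : IsPrim φ F := by
  intro τ
  have hd : DifferentiableAt ℂ (F ∘ ofComplex) (τ : ℂ) := mdifferentiableAt_iff.mp (hF τ)
  have h1 := hd.hasDerivAt
  have h2 := congrFun hD τ
  unfold normalizedDerivOfComplex at h2
  have h3 : deriv (F ∘ ofComplex) (τ : ℂ) = φ τ :=
    mul_left_cancel₀ (inv_ne_zero two_pi_I_ne_zero') h2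
  rwa [h3] at h1

theorem IsPrim.add {φ ψ F G : ℍ → ℂ} (h₁ : IsPrim φ F) (h₂ : IsPrim ψ G) :
    IsPrim (φ + ψ) (F + G) := fun τ => (h₁ τ).add (h₂ τ)

theorem IsPrim.sub {φ ψ F G : ℍ → ℂ} (h₁ : IsPrim φ F) (h₂ : IsPrim ψ G) :
    IsPrim (φ - ψ) (F - G) := fun τ => (h₁ τ).sub (h₂ τ)

theorem IsPrim.const_smul {φ F : ℍ → ℂ} (h : IsPrim φ F) (c : ℂ) :
    IsPrim (c • φ) (c • F) := fun τ => (h τ).const_smul c

theorem isPrim_const (c : ℂ) : IsPrim 0 (fun _ => c) := fun τ => by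
  have : ((fun _ : ℍ => c) ∘ ofComplex) = fun _ => c := rfl
  rw [this]
  exact hasDerivAt_const _ _

/-- A primitive of zero is constant. -/
theorem IsPrim.exists_const {F : ℍ → ℂ} (h : IsPrim 0 F) : ∃ c : ℂ, ∀ τ : ℍ, F τ = c := by
  apply exists_const_of_D_eq_zero h.mdiff
  rw [h.D_eq]
  funext τ
  simp

/-- Two primitives of the same function differ by a constant. -/
theorem IsPrim.exists_sub_const {φ F G : ℍ → ℂ} (h₁ : IsPrim φ F) (h₂ : IsPrim φ G) :
    ∃ c : ℂ, ∀ τ : ℍ, F τ - G τ = c := by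
  have h := h₁.sub h₂
  rw [sub_self] at h
  exact h.exists_const

/-- Uniqueness of the primitive vanishing at `i∞`. -/
theorem IsPrim.unique {φ F G : ℍ → ℂ} (h₁ : IsPrim φ F) (h₂ : IsPrim φ G)
    (z₁ : Tendsto F atImInfty (𝓝 0)) (z₂ : Tendsto G atImInfty (𝓝 0)) : F = G := by
  obtain ⟨c, hc⟩ := h₁.exists_sub_const h₂
  have hlim : Tendsto (fun τ => F τ - G τ) atImInfty (𝓝 c) := by
    simp_rw [hc]; exact tendsto_const_nhds
  have hlim' : Tendsto (fun τ => F τ - G τ) atImInfty (𝓝 (0 - 0)) := z₁.sub z₂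
  have : c = 0 - 0 := tendsto_nhds_unique hlim hlim'
  funext τ
  have := hc τ
  rw [‹c = 0 - 0›, sub_zero] at this
  exact sub_eq_zero.mp this

/-- Existence of a primitive vanishing at `i∞` for periodic holomorphic functions vanishing at
`i∞`. -/
theorem exists_isPrim {φ : ℍ → ℂ} {h : ℝ} (hh : 0 < h) (hφ : MDiff φ)
    (hper : Function.Periodic (φ ∘ ofComplex) h) (hzero : IsZeroAtImInfty φ) :
    ∃ F : ℍ → ℂ, IsPrim φ F ∧ Tendsto F atImInfty (𝓝 0) := by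
  obtain ⟨G, hG, -, hG0, hDG⟩ := exists_antideriv hh hφ hper hzero
  refine ⟨(2 * (Real.pi : ℂ) * I)⁻¹ • G, ?_, ?_⟩
  · apply isPrim_of_D (hG.const_smul _)
    rw [normalizedDerivOfComplex_smul _ _ hG, hDG]
    rfl
  · have : Tendsto ((2 * (Real.pi : ℂ) * I)⁻¹ • G) atImInfty (𝓝 ((2 * (Real.pi : ℂ) * I)⁻¹ • 0)) :=
      Filter.Tendsto.const_smul hG0 _
    rwa [smul_zero] at this

/-- The weight zero slash action is composition. -/
theorem slash_zero_apply (F : ℍ → ℂ) (γ : SL(2, ℤ)) (τ : ℍ) :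
    (F ∣[(0 : ℤ)] γ) τ = F (γ • τ) := by
  rw [ModularForm.SL_slash_apply]
  simp

theorem D_slash_zero {F : ℍ → ℂ} (hF : MDiff F) (γ : SL(2, ℤ)) :
    D (F ∣[(0 : ℤ)] γ) = (D F) ∣[(2 : ℤ)] γ := by
  have := normalizedDerivOfComplex_SL_slash (k := 0) hF (γ := γ)
  rw [this]
  funext z
  simp

/-- Chain rule for primitives under the action of `SL(2, ℤ)`. -/
theorem IsPrim.slash {φ F : ℍ → ℂ} (h : IsPrim φ F) (γ : SL(2, ℤ)) :
    IsPrim (φ ∣[(2 : ℤ)] γ) (F ∣[(0 : ℤ)] γ) := by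
  have hm : MDiff (F ∣[(0 : ℤ)] γ) := by
    rw [ModularForm.SL_slash]
    exact h.mdiff.slash 0 _
  apply isPrim_of_D hm
  rw [D_slash_zero h.mdiff, h.D_eq]
  funext τ
  rw [ModularForm.SL_slash_apply, ModularForm.SL_slash_apply]
  ring

end Fermat.Agent.S21_helper65
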